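/-
S41 / C11 [NEW] (helper63) — two abstract complements to `Hecke15/Abstract.lean` (Mathlib only):
* `isStable_of_transversal` : a family with pairwise distinct cosets such that every `ρ k * e' γ`
  lies in some coset `e(Γ') ρ k'` is stable;
* `IsStable.central_mul`, `heckeHom_central_mul` : multiplying a family by a central element of the
  ambient group changes neither stability nor the operator.
-/
import Mathlib
import Fermat.Agent.S41.Hecke15.Abstract

set_option autoImplicit false

namespace Fermat.Agent.S41.New63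

open Fermat.Agent.S41.Hecke15

variable {G Γ Γ' : Type*} [Group G] [Group Γ] [Group Γ'] {A : Type*} [AddCommGroup A]
variable {ι : Type*}

/-- stability from "existence + distinctness of cosets". -/
theorem isStable_of_transversal [Finite ι] (e : Γ →* G) (e' : Γ' →* G) (ρ : ι → G)
    (hex : ∀ (k : ι) (γ' : Γ'), ∃ (k' : ι) (c : Γ), ρ k * e' γ' = e c * ρ k')
    (hinj : ∀ (k k' : ι) (c : Γ), ρ k = e c * ρ k' → k = k') : IsStable e e' ρ := by
  intro γ'
  choose σ c hc using fun k => hex k γ'
  have hσ : Function.Injective σ := by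
    intro k₁ k₂ h12
    apply hinj k₁ k₂ (c k₁ * (c k₂)⁻¹)
    have h1 := hc k₁
    have h2 := hc k₂
    rw [h12] at h1
    have h3 : ρ k₁ = e (c k₁) * ρ (σ k₂) * (e' γ')⁻¹ := by rw [← h1]; group
    have h4 : ρ (σ k₂) = (e (c k₂))⁻¹ * (ρ k₂ * e' γ') := by rw [h2]; group
    rw [h3, h4, map_mul, map_inv]
    group
  exact ⟨Equiv.ofBijective σ (Finite.injective_iff_bijective.mp hσ), c, hc⟩

/-- multiplying a stable family by a central element keeps it stable. -/
theorem IsStable.central_mul {e : Γ →* G} {e' : Γ' →* G} {α : ι → G} (hα : IsStable e e' α)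
    (z : G) (hz : ∀ g : G, z * g = g * z) : IsStable e e' (fun i => z * α i) := by
  intro γ'
  obtain ⟨σ, c, hc⟩ := hα γ'
  refine ⟨σ, c, fun i => ?_⟩
  rw [mul_assoc, hc i, ← mul_assoc, hz, mul_assoc]

/-- multiplying a stable family by a central element does not change the operator. -/
theorem heckeHom_central_mul [Fintype ι] (e : Γ →* G) (he : Function.Injective e) (e' : Γ' →* G)
    (α : ι → G) (hα : IsStable e e' α) (z : G) (hz : ∀ g : G, z * g = g * z)
    (hα' : IsStable e e' (fun i => z * α i)) :
    (heckeHom e he e' (fun i => z * α i) hα' : (Additive Γ →+ A) →+ _) = heckeHom e he e' α hα := by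
  refine AddMonoidHom.ext fun φ => AddMonoidHom.ext fun x => ?_
  obtain ⟨γ', rfl⟩ := Additive.ofMul.surjective x
  obtain ⟨σ, c, hc⟩ := hα γ'
  rw [heckeHom_apply_of_reps e he e' α hα φ γ' σ c hc,
    heckeHom_apply_of_reps e he e' _ hα' φ γ' σ c (fun i => by
      rw [mul_assoc, hc i, ← mul_assoc, hz, mul_assoc])]

end Fermat.Agent.S41.New63
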