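/-
S41 / C11 [NEW] (helper63) — the 2x2 matrix facts in `GL (Fin 2) ℝ` (Prelude `heckeMatrix` form).

For `q x - N y = 1`:
* `wAL` : the Atkin–Lehner matrix `[[q x, y],[N q, q]]` (determinant `q`);
* `rMat j = [[x, x j + y],[N, N j + q]] ∈ Γ₀(N)`, and `wAL * heckeMatrix q j = q • mapGL ℝ (rMat j)`;
* `wAL` normalises `Γ₀(N q)` : `wAL * mapGL ℝ γ = mapGL ℝ (wConj γ) * wAL`;
* `wAL * wAL = q • mapGL ℝ γ₀` with `γ₀ ∈ Γ₀(N q)`.
-/
import Mathlib
import Fermat.Prelude.Def_ModularForm_HeckeOperator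
import Fermat.Agent.S41.Hecke15.Abstract

set_option autoImplicit false

namespace Fermat.Agent.S41.New63

open Matrix.SpecialLinearGroup CongruenceSubgroup ModularForm
open scoped MatrixGroups

/-- the embedding `Γ₀(N) → GL₂(ℝ)` (the same expression as `Hecke15.eGL`). -/
noncomputable def eGL63 (N : ℕ) : Gamma0 N →* GL (Fin 2) ℝ :=
  (mapGL ℝ).comp (Gamma0 N).subtype

theorem eGL63_apply (N : ℕ) (γ : Gamma0 N) : eGL63 N γ = mapGL ℝ (γ : SL(2, ℤ)) := rfl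

theorem eGL63_injective (N : ℕ) : Function.Injective (eGL63 N) :=
  (mapGL_injective (R := ℤ) (S := ℝ)).comp Subtype.val_injective

@[simp] theorem mapGL_apply63 (g : SL(2, ℤ)) (i j : Fin 2) :
    (mapGL ℝ g : GL (Fin 2) ℝ) i j = ((g i j : ℤ) : ℝ) := by
  simp

theorem det_eq63 (g : SL(2, ℤ)) : g 0 0 * g 1 1 - g 0 1 * g 1 0 = 1 := by
  have h := g.det_coe
  rwa [Matrix.det_fin_two] at h

/-- a scalar matrix in `GL₂(ℝ)` -/
noncomputable def scalarGL (c : ℝ) (hc : c ≠ 0) : GL (Fin 2) ℝ :=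
  upperTriangularGL c 0 c (mul_ne_zero hc hc)

theorem scalarGL_central (c : ℝ) (hc : c ≠ 0) (g : GL (Fin 2) ℝ) :
    scalarGL c hc * g = g * scalarGL c hc := by
  ext i j
  fin_cases i <;> fin_cases j <;>
    simp [scalarGL, Matrix.mul_apply, Fin.sum_univ_two] <;> ring

section AL

variable (N q : ℕ) (x y : ℤ)

/-- the Atkin–Lehner matrix `[[q x, y],[N q, q]]`. -/
noncomputable def wAL (hq : q ≠ 0) (hxy : (q : ℤ) * x - N * y = 1) : GL (Fin 2) ℝ :=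
  Matrix.GeneralLinearGroup.mkOfDetNeZero !![(q : ℝ) * x, (y : ℝ); (N : ℝ) * q, (q : ℝ)] (by
    rw [Matrix.det_fin_two_of]
    have h := congrArg (Int.cast : ℤ → ℝ) hxy
    push_cast at h
    have hq' : (q : ℝ) ≠ 0 := by exact_mod_cast hq
    have : (q : ℝ) * x * q - y * (N * q) = q := by linear_combination (q : ℝ) * h
    rw [this]
    exact hq')

@[simp] theorem val_wAL (hq : q ≠ 0) (hxy : (q : ℤ) * x - N * y = 1) :
    ((wAL N q x y hq hxy : GL (Fin 2) ℝ) : Matrix (Fin 2) (Fin 2) ℝ)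
      = !![(q : ℝ) * x, (y : ℝ); (N : ℝ) * q, (q : ℝ)] := rfl

/-- `rMat j = [[x, x j + y],[N, N j + q]]`. -/
def rMat (hxy : (q : ℤ) * x - N * y = 1) (j : ℤ) : SL(2, ℤ) :=
  ⟨!![x, x * j + y; (N : ℤ), N * j + q], by
    rw [Matrix.det_fin_two_of]
    linear_combination hxy⟩

theorem rMat_mem_Gamma0 (hxy : (q : ℤ) * x - N * y = 1) (j : ℤ) :
    rMat N q x y hxy j ∈ Gamma0 N := by
  rw [Gamma0_mem]
  simp [rMat]

/-- `w α_j = q · r_j`. -/
theorem wAL_mul_heckeMatrix (hq : q ≠ 0) (hxy : (q : ℤ) * x - N * y = 1) (j : ℕ) :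
    wAL N q x y hq hxy * heckeMatrix q j
      = scalarGL (q : ℝ) (by exact_mod_cast hq) * mapGL ℝ (rMat N q x y hxy (j : ℤ)) := by
  ext i k
  fin_cases i <;> fin_cases k <;>
    simp [hq, scalarGL, rMat, Matrix.mul_apply, Fin.sum_univ_two] <;> ring

/-- `w` normalises `Γ₀(N q)` : explicit conjugate. -/
theorem wAL_normalizes (hq : q ≠ 0) (hxy : (q : ℤ) * x - N * y = 1) (γ : SL(2, ℤ)) (c₀ : ℤ)
    (hc : γ 1 0 = N * q * c₀) :
    ∃ γ' : SL(2, ℤ), γ' 1 0 = N * q * (γ 0 0 + q * c₀ - N * γ 0 1 - γ 1 1) ∧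
      wAL N q x y hq hxy * mapGL ℝ γ = mapGL ℝ γ' * wAL N q x y hq hxy := by
  have hdet := det_eq63 γ
  rw [hc] at hdet
  refine ⟨⟨!![q * x * γ 0 0 + y * N * q * c₀ - N * q * x * γ 0 1 - N * y * γ 1 1,
      -x * γ 0 0 * y - y ^ 2 * N * c₀ + q * x ^ 2 * γ 0 1 + x * y * γ 1 1;
      N * q * (γ 0 0 + q * c₀ - N * γ 0 1 - γ 1 1),
      -N * γ 0 0 * y - N * q * c₀ * y + N * q * x * γ 0 1 + q * x * γ 1 1], ?_⟩, rfl, ?_⟩
  · rw [Matrix.det_fin_two_of]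
    linear_combination ((q * x - N * y + 1) * (γ 0 0 * γ 1 1 - γ 0 1 * (N * q * c₀))) * hxy + hdet
  · have h := congrArg (Int.cast : ℤ → ℝ) hxy
    have hcR := congrArg (Int.cast : ℤ → ℝ) hc
    push_cast at h hcR
    ext i k
    fin_cases i <;> fin_cases k <;>
      simp [Matrix.mul_apply, Fin.sum_univ_two, hcR]
    · linear_combination (-((q:ℝ) * x * γ 0 0 + y * (N * q * c₀))) * h
    · linear_combination (-((q:ℝ) * x * γ 0 1 + y * γ 1 1)) * h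
    · linear_combination (-((N:ℝ) * q * γ 0 0 + q * (N * q * c₀))) * h
    · linear_combination (-((N:ℝ) * q * γ 0 1 + q * γ 1 1)) * h

/-- `w² = q · γ₀` with `γ₀ ∈ Γ₀(N q)`. -/
theorem wAL_sq (hq : q ≠ 0) (hxy : (q : ℤ) * x - N * y = 1) :
    ∃ γ₀ : SL(2, ℤ), γ₀ 1 0 = N * q * (x + 1) ∧
      wAL N q x y hq hxy * wAL N q x y hq hxy
        = scalarGL (q : ℝ) (by exact_mod_cast hq) * mapGL ℝ γ₀ := by
  refine ⟨⟨!![q * x ^ 2 + N * y, y * (x + 1); N * q * (x + 1), N * y + q], ?_⟩, rfl, ?_⟩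
  · rw [Matrix.det_fin_two_of]
    linear_combination ((q : ℤ) * x - N * y + 1) * hxy
  · ext i k
    fin_cases i <;> fin_cases k <;>
      simp [scalarGL, Matrix.mul_apply, Fin.sum_univ_two] <;> ring

end AL

end Fermat.Agent.S41.New63
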