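/-
S41 / C11 [NEW] + cores side of C1 (helper63).

`coresFam N q x y hxy : OnePoint (ZMod q) → GL (Fin 2) ℝ` (`∞ ↦ 1`, `j ↦ mapGL ℝ (rMat j)`) is a right
transversal of `Γ₀(N q)` in `Γ₀(N)`; it is stable, and `degCores` is the corestriction (transfer)
`Hom(Γ₀(N q), A) → Hom(Γ₀(N), A)`.
-/
import Mathlib
import Fermat.Agent.S41.New63.Matrices
import Fermat.Agent.S41.New63.AbstractExtra

set_option autoImplicit false
set_option linter.unusedSectionVars false

namespace Fermat.Agent.S41.New63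

open Matrix.SpecialLinearGroup CongruenceSubgroup ModularForm Fermat.Agent.S41.Hecke15
open scoped MatrixGroups OnePoint

section

variable (N q : ℕ) [hqp : Fact q.Prime] (x y : ℤ) (hxy : (q : ℤ) * x - N * y = 1)

theorem mem_Gamma0_iff_dvd (M : ℕ) (g : SL(2, ℤ)) : g ∈ Gamma0 M ↔ (M : ℤ) ∣ g 1 0 := by
  rw [Gamma0_mem, ZMod.intCast_zmod_eq_zero_iff_dvd]

theorem Gamma0_mul_le (g : SL(2, ℤ)) (hg : g ∈ Gamma0 (N * q)) : g ∈ Gamma0 N := by
  rw [mem_Gamma0_iff_dvd] at hg ⊢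
  exact (Dvd.intro _ (by push_cast; rfl)).trans hg

/-- entries of `g * r⁻¹` -/
theorem mul_inv_apply_one_zero (g r : SL(2, ℤ)) :
    (g * r⁻¹) 1 0 = g 1 0 * r 1 1 - g 1 1 * r 1 0 := by
  rw [Matrix.SpecialLinearGroup.coe_mul, Matrix.SpecialLinearGroup.coe_inv,
    Matrix.adjugate_fin_two, Matrix.mul_apply, Fin.sum_univ_two]
  simp
  ring

include hxy in
/-- every element of `Γ₀(N)` lies in `Γ₀(N q)` or in some `Γ₀(N q) r_j`. -/
theorem exists_coset_rep (hqN : ¬ q ∣ N) (g : SL(2, ℤ)) (hg : g ∈ Gamma0 N) :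
    g ∈ Gamma0 (N * q) ∨
      ∃ j : ZMod q, g * (rMat N q x y hxy (j.val : ℤ))⁻¹ ∈ Gamma0 (N * q) := by
  have hq := hqp.out
  rw [mem_Gamma0_iff_dvd] at hg
  obtain ⟨g', hg'⟩ := hg
  have hcop : IsCoprime (N : ℤ) (q : ℤ) := by
    rw [Int.isCoprime_iff_gcd_eq_one, Int.gcd_natCast_natCast]
    exact Nat.Coprime.symm ((Nat.Prime.coprime_iff_not_dvd hq).mpr hqN)
  by_cases hdiv : (q : ℤ) ∣ g 1 0
  · left
    rw [mem_Gamma0_iff_dvd]
    push_cast
    exact hcop.mul_dvd ⟨g', hg'⟩ hdiv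
  · right
    have hne : ((g 1 0 : ℤ) : ZMod q) ≠ 0 := by
      rwa [Ne, ZMod.intCast_zmod_eq_zero_iff_dvd]
    refine ⟨((g 1 1 : ℤ) : ZMod q) / ((g 1 0 : ℤ) : ZMod q), ?_⟩
    set j : ZMod q := ((g 1 1 : ℤ) : ZMod q) / ((g 1 0 : ℤ) : ZMod q) with hj
    rw [mem_Gamma0_iff_dvd, mul_inv_apply_one_zero]
    have hr11 : (rMat N q x y hxy (j.val : ℤ)) 1 1 = N * (j.val : ℤ) + q := by simp [rMat]
    have hr10 : (rMat N q x y hxy (j.val : ℤ)) 1 0 = N := by simp [rMat]
    rw [hr11, hr10, hg']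
    have hq' : (q : ℤ) ∣ g' * (N * (j.val : ℤ) + q) - g 1 1 := by
      rw [← ZMod.intCast_zmod_eq_zero_iff_dvd]
      push_cast
      rw [ZMod.natCast_zmod_val, ZMod.natCast_self, add_zero]
      have h1 : ((g 1 0 : ℤ) : ZMod q) = N * g' := by rw [hg']; push_cast; rfl
      have h2 : j * ((g 1 0 : ℤ) : ZMod q) = ((g 1 1 : ℤ) : ZMod q) := by
        rw [hj, div_mul_cancel₀ _ hne]
      rw [h1] at h2
      linear_combination h2
    obtain ⟨m, hm⟩ := hq'
    refine ⟨m, ?_⟩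
    push_cast
    linear_combination (N : ℤ) * hm

include hxy in
/-- `r_j ∉ Γ₀(N q)`. -/
theorem rMat_not_mem (hN : N ≠ 0) (j : ℤ) : rMat N q x y hxy j ∉ Gamma0 (N * q) := by
  have hq := hqp.out
  rw [mem_Gamma0_iff_dvd]
  have : (rMat N q x y hxy j) 1 0 = N := by simp [rMat]
  rw [this]
  push_cast
  intro h
  have h1 : (N : ℤ) * q ∣ (N : ℤ) * 1 := by simpa using h
  have h2 := (mul_dvd_mul_iff_left (by exact_mod_cast hN : (N : ℤ) ≠ 0)).mp h1
  have h3 : q ∣ 1 := by exact_mod_cast h2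
  exact hq.one_lt.ne' (Nat.dvd_one.mp h3)

include hxy in
/-- `r_j r_{j'}⁻¹ ∈ Γ₀(N q)` forces `j = j'`. -/
theorem rMat_coset_inj (hqN : ¬ q ∣ N) (j j' : ZMod q)
    (h : rMat N q x y hxy (j.val : ℤ) * (rMat N q x y hxy (j'.val : ℤ))⁻¹ ∈ Gamma0 (N * q)) :
    j = j' := by
  have hq := hqp.out
  rw [mem_Gamma0_iff_dvd, mul_inv_apply_one_zero] at h
  have e1 : (rMat N q x y hxy (j.val : ℤ)) 1 0 = N := by simp [rMat]
  have e2 : (rMat N q x y hxy (j.val : ℤ)) 1 1 = N * (j.val : ℤ) + q := by simp [rMat]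
  have e3 : (rMat N q x y hxy (j'.val : ℤ)) 1 0 = N := by simp [rMat]
  have e4 : (rMat N q x y hxy (j'.val : ℤ)) 1 1 = N * (j'.val : ℤ) + q := by simp [rMat]
  rw [e1, e2, e3, e4] at h
  have hq1 : (q : ℤ) ∣ (N : ℤ) * (N * (j'.val : ℤ) + q) - (N * (j.val : ℤ) + q) * N :=
    (Dvd.intro_left _ (by push_cast; rfl)).trans h
  rw [← ZMod.intCast_zmod_eq_zero_iff_dvd] at hq1
  push_cast at hq1
  rw [ZMod.natCast_zmod_val, ZMod.natCast_zmod_val, ZMod.natCast_self] at hq1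
  have hN0 : (N : ZMod q) ≠ 0 := by
    rwa [Ne, ZMod.natCast_eq_zero_iff]
  have h5 : (N : ZMod q) * (N : ZMod q) * (j' - j) = 0 := by linear_combination hq1
  have h6 := (mul_eq_zero.mp h5).resolve_left (mul_ne_zero hN0 hN0)
  exact (sub_eq_zero.mp h6).symm

/-- the right transversal of `Γ₀(N q)` in `Γ₀(N)`, as a family in `GL₂(ℝ)`. -/
noncomputable def coresFam : OnePoint (ZMod q) → GL (Fin 2) ℝ :=
  fun k => k.elim 1 (fun j => mapGL ℝ (rMat N q x y hxy (j.val : ℤ)))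

@[simp] theorem coresFam_infty : coresFam N q x y hxy ∞ = 1 := rfl

@[simp] theorem coresFam_coe (j : ZMod q) :
    coresFam N q x y hxy (j : OnePoint (ZMod q)) = mapGL ℝ (rMat N q x y hxy (j.val : ℤ)) := rfl

/-- the element of `Γ₀(N)` behind `coresFam k`. -/
noncomputable def coresElt (k : OnePoint (ZMod q)) : Gamma0 N :=
  k.elim 1 (fun j => ⟨rMat N q x y hxy (j.val : ℤ), rMat_mem_Gamma0 N q x y hxy _⟩)

theorem coresFam_eq (k : OnePoint (ZMod q)) :
    coresFam N q x y hxy k = eGL63 N (coresElt N q x y hxy k) := by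
  induction k using OnePoint.rec with
  | infty => simp [coresElt]
  | coe j => rfl

/-- `coresFam` is stable: it is a right transversal of `Γ₀(N q)` in `Γ₀(N)`. -/
theorem coresFam_isStable (hN : N ≠ 0) (hqN : ¬ q ∣ N) :
    IsStable (eGL63 (N * q)) (eGL63 N) (coresFam N q x y hxy) := by
  have : NeZero q := ⟨hqp.out.ne_zero⟩
  apply isStable_of_transversal
  · intro k γ
    -- the element `g = ρ_k γ ∈ Γ₀(N)`
    set g : Gamma0 N := coresElt N q x y hxy k * γ with hg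
    have hgk : coresFam N q x y hxy k * eGL63 N γ = eGL63 N g := by
      rw [hg, map_mul, coresFam_eq]
    rcases exists_coset_rep N q x y hxy hqN (g : SL(2, ℤ)) g.2 with h | ⟨j, hj⟩
    · refine ⟨∞, ⟨(g : SL(2, ℤ)), h⟩, ?_⟩
      rw [hgk, coresFam_infty, mul_one]
      rfl
    · refine ⟨(j : OnePoint (ZMod q)), ⟨_, hj⟩, ?_⟩
      rw [hgk, coresFam_coe, eGL63_apply, eGL63_apply, ← map_mul]
      congr 1
      simp
  · intro k k' c hkk
    have hkk' : eGL63 N (coresElt N q x y hxy k)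
        = eGL63 N (⟨(c : SL(2, ℤ)), Gamma0_mul_le N q _ c.2⟩ * coresElt N q x y hxy k') := by
      rw [map_mul, ← coresFam_eq, ← coresFam_eq, hkk]
      rfl
    have hkk'' := eGL63_injective N hkk'
    have hval : (coresElt N q x y hxy k : SL(2, ℤ))
        = (c : SL(2, ℤ)) * (coresElt N q x y hxy k' : SL(2, ℤ)) := by
      rw [hkk'']; rfl
    induction k using OnePoint.rec with
    | infty =>
      induction k' using OnePoint.rec with
      | infty => rfl
      | coe j' =>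
        exfalso
        apply rMat_not_mem N q x y hxy hN (j'.val : ℤ)
        have : rMat N q x y hxy (j'.val : ℤ) = (c : SL(2, ℤ))⁻¹ := by
          have h1 : (1 : SL(2, ℤ)) = (c : SL(2, ℤ)) * rMat N q x y hxy (j'.val : ℤ) := hval
          exact eq_inv_of_mul_eq_one_right h1.symm
        rw [this]
        exact (Gamma0 (N * q)).inv_mem c.2
    | coe j =>
      induction k' using OnePoint.rec with
      | infty =>
        exfalso
        apply rMat_not_mem N q x y hxy hN (j.val : ℤ)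
        have h1 : rMat N q x y hxy (j.val : ℤ) = (c : SL(2, ℤ)) * 1 := hval
        rw [h1, mul_one]
        exact c.2
      | coe j' =>
        have h1 : rMat N q x y hxy (j.val : ℤ)
            = (c : SL(2, ℤ)) * rMat N q x y hxy (j'.val : ℤ) := hval
        have h2 : rMat N q x y hxy (j.val : ℤ) * (rMat N q x y hxy (j'.val : ℤ))⁻¹
            = (c : SL(2, ℤ)) := by rw [h1]; group
        have h3 := rMat_coset_inj N q x y hxy hqN j j' (by rw [h2]; exact c.2)
        rw [h3]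

/-- corestriction `Hom(Γ₀(N q), A) → Hom(Γ₀(N), A)`. -/
noncomputable def degCores {A : Type*} [AddCommGroup A] (hN : N ≠ 0) (hqN : ¬ q ∣ N) :
    (Additive (Gamma0 (N * q)) →+ A) →+ (Additive (Gamma0 N) →+ A) :=
  heckeHom (eGL63 (N * q)) (eGL63_injective _) (eGL63 N) (coresFam N q x y hxy)
    (coresFam_isStable N q x y hxy hN hqN)

end

end Fermat.Agent.S41.New63
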