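/-
S41 / C11 [NEW] (helper63).

On `Hom(Γ₀(N q), A)` (q prime, q ∤ N, N ≠ 0):
* `WOp`  : the Atkin–Lehner involution (conjugation by `wAL`), `WOp_WOp : W (W φ) = φ`;
* `UOp`  : the `U_q` operator = `heckeHom` of the Prelude family `fun x : ZMod q => heckeMatrix q x.val`
           (its stability `hU` is a hypothesis: it is `Hecke15`'s `stable_heckeMatrix`);
* `degRes_degCores : res (cores φ) = φ + U_q (W φ)`;
* **`UOp_UOp_of_mem_ker`** : `cores φ = 0 → cores (W φ) = 0 → U_q (U_q φ) = φ`;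
  `UOp_eq_neg_WOp`, and stability of `ker cores ⊓ ker (cores ∘ W)` under `W` and `U_q`.
-/
import Mathlib
import Fermat.Agent.S41.New63.Cores

set_option autoImplicit false
set_option linter.unusedSectionVars false

namespace Fermat.Agent.S41.New63

open Matrix.SpecialLinearGroup CongruenceSubgroup ModularForm Fermat.Agent.S41.Hecke15
open scoped MatrixGroups OnePoint

section

variable (N q : ℕ) [hqp : Fact q.Prime] (x y : ℤ) (hxy : (q : ℤ) * x - N * y = 1)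
variable {A : Type*} [AddCommGroup A]

theorem q_ne_zero63 : q ≠ 0 := hqp.out.ne_zero

/-- for `γ' ∈ Γ₀(N q)` the explicit `w`-conjugate. -/
theorem exists_wAL_conj (γ' : Gamma0 (N * q)) :
    ∃ c : Gamma0 (N * q), wAL N q x y (q_ne_zero63 q) hxy * eGL63 (N * q) γ'
      = eGL63 (N * q) c * wAL N q x y (q_ne_zero63 q) hxy := by
  obtain ⟨c₀, hc₀⟩ := (mem_Gamma0_iff_dvd (N * q) (γ' : SL(2, ℤ))).mp γ'.2
  obtain ⟨γ'', h10, hmul⟩ := wAL_normalizes N q x y (q_ne_zero63 q) hxy (γ' : SL(2, ℤ)) c₀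
    (by rw [hc₀]; push_cast; ring)
  refine ⟨⟨γ'', ?_⟩, hmul⟩
  rw [mem_Gamma0_iff_dvd, h10]
  exact ⟨(γ' : SL(2, ℤ)) 0 0 + q * c₀ - N * (γ' : SL(2, ℤ)) 0 1 - (γ' : SL(2, ℤ)) 1 1,
    by push_cast; ring⟩

theorem wAL_isStable :
    IsStable (eGL63 (N * q)) (eGL63 (N * q))
      (fun _ : Unit => wAL N q x y (q_ne_zero63 q) hxy) :=
  isStable_unit _ _ _ (exists_wAL_conj N q x y hxy)

/-- the Atkin–Lehner operator on `Hom(Γ₀(N q), A)`. -/
noncomputable def WOp :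
    (Additive (Gamma0 (N * q)) →+ A) →+ (Additive (Gamma0 (N * q)) →+ A) :=
  heckeHom (eGL63 (N * q)) (eGL63_injective _) (eGL63 (N * q))
    (fun _ : Unit => wAL N q x y (q_ne_zero63 q) hxy) (wAL_isStable N q x y hxy)

theorem WOp_apply (φ : Additive (Gamma0 (N * q)) →+ A) (γ' c : Gamma0 (N * q))
    (h : wAL N q x y (q_ne_zero63 q) hxy * eGL63 (N * q) γ'
      = eGL63 (N * q) c * wAL N q x y (q_ne_zero63 q) hxy) :
    WOp N q x y hxy φ (Additive.ofMul γ') = φ (Additive.ofMul c) :=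
  heckeHom_unit_apply _ _ _ _ _ φ γ' c h

/-- a homomorphism to an abelian group is conjugation invariant -/
theorem map_conj63 {Γ : Type*} [Group Γ] (φ : Additive Γ →+ A) (g h : Γ) :
    φ (Additive.ofMul (g * h * g⁻¹)) = φ (Additive.ofMul h) := by
  rw [ofMul_mul, ofMul_mul, map_add, map_add, ofMul_inv, map_neg]
  abel

/-- `W² = 1`. -/
theorem WOp_WOp (φ : Additive (Gamma0 (N * q)) →+ A) :
    WOp N q x y hxy (WOp N q x y hxy φ) = φ := by
  refine AddMonoidHom.ext fun z => ?_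
  obtain ⟨γ', rfl⟩ := Additive.ofMul.surjective z
  obtain ⟨c₁, h₁⟩ := exists_wAL_conj N q x y hxy γ'
  obtain ⟨c₂, h₂⟩ := exists_wAL_conj N q x y hxy c₁
  rw [WOp_apply N q x y hxy _ γ' c₁ h₁, WOp_apply N q x y hxy φ c₁ c₂ h₂]
  obtain ⟨γ₀, h10, hsq⟩ := wAL_sq N q x y (q_ne_zero63 q) hxy
  have hγ₀ : γ₀ ∈ Gamma0 (N * q) := by
    rw [mem_Gamma0_iff_dvd, h10]
    exact ⟨x + 1, by push_cast; ring⟩
  set w := wAL N q x y (q_ne_zero63 q) hxy with hw
  set zq := scalarGL (q : ℝ) (by exact_mod_cast (q_ne_zero63 q)) with hzq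
  have hcentral := scalarGL_central (q : ℝ) (by exact_mod_cast (q_ne_zero63 q))
  -- `w w e(γ') = e(c₂) w w`
  have h3 : w * w * eGL63 (N * q) γ' = eGL63 (N * q) c₂ * (w * w) := by
    rw [mul_assoc, h₁, ← mul_assoc, h₂, mul_assoc]
  rw [hsq] at h3
  have h4 : eGL63 (N * q) (⟨γ₀, hγ₀⟩ * γ') = eGL63 (N * q) (c₂ * ⟨γ₀, hγ₀⟩) := by
    rw [map_mul, map_mul]
    have e0 : eGL63 (N * q) ⟨γ₀, hγ₀⟩ = mapGL ℝ γ₀ := rfl
    rw [e0]
    have h5 : zq * (mapGL ℝ γ₀ * eGL63 (N * q) γ') = zq * (eGL63 (N * q) c₂ * mapGL ℝ γ₀) := by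
      rw [← mul_assoc, h3, ← mul_assoc, ← mul_assoc, hcentral]
    exact mul_left_cancel h5
  have h6 := eGL63_injective _ h4
  have h7 : c₂ = ⟨γ₀, hγ₀⟩ * γ' * (⟨γ₀, hγ₀⟩ : Gamma0 (N * q))⁻¹ := by
    rw [h6]; group
  rw [h7, map_conj63]

/-- the stability of the `U_q`-family (provided by `Hecke15.Gamma0`), as a hypothesis. -/
abbrev UStable : Prop :=
  IsStable (eGL63 (N * q)) (eGL63 (N * q)) (fun j : ZMod q => heckeMatrix q j.val)

/-- the `U_q` operator on `Hom(Γ₀(N q), A)` : `heckeHom` of the Prelude family. -/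
noncomputable def UOp (hU : UStable N q) :
    (Additive (Gamma0 (N * q)) →+ A) →+ (Additive (Gamma0 (N * q)) →+ A) :=
  haveI : NeZero q := ⟨q_ne_zero63 q⟩
  heckeHom (eGL63 (N * q)) (eGL63_injective _) (eGL63 (N * q))
    (fun j : ZMod q => heckeMatrix q j.val) hU

/-- restriction `Hom(Γ₀(N), A) → Hom(Γ₀(N q), A)`. -/
noncomputable def degRes :
    (Additive (Gamma0 N) →+ A) →+ (Additive (Gamma0 (N * q)) →+ A) :=
  heckeHom (eGL63 N) (eGL63_injective _) (eGL63 (N * q)) (fun _ : Unit => (1 : GL (Fin 2) ℝ))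
    (isStable_unit _ _ _ fun γ' => ⟨⟨(γ' : SL(2, ℤ)), Gamma0_mul_le N q _ γ'.2⟩, by
      rw [one_mul, mul_one]; rfl⟩)

theorem degRes_apply (φ : Additive (Gamma0 N) →+ A) (γ' : Gamma0 (N * q)) :
    degRes N q φ (Additive.ofMul γ')
      = φ (Additive.ofMul ⟨(γ' : SL(2, ℤ)), Gamma0_mul_le N q _ γ'.2⟩) :=
  heckeHom_unit_apply _ _ _ _ _ φ γ' _ (by rw [one_mul, mul_one]; rfl)

/-- **the key identity** `res ∘ cores = 1 + U_q ∘ W` on `Hom(Γ₀(N q), A)`. -/
theorem degRes_degCores (hN : N ≠ 0) (hqN : ¬ q ∣ N) (hU : UStable N q)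
    (φ : Additive (Gamma0 (N * q)) →+ A) :
    degRes N q (degCores N q x y hxy hN hqN φ) = φ + UOp N q hU (WOp N q x y hxy φ) := by
  have : NeZero q := ⟨q_ne_zero63 q⟩
  refine AddMonoidHom.ext fun z => ?_
  obtain ⟨γ', rfl⟩ := Additive.ofMul.surjective z
  rw [degRes_apply, AddMonoidHom.add_apply]
  -- the `U`-data of `γ'`
  obtain ⟨σ, β, hβ⟩ := hU γ'
  -- the `W`-conjugates of the `β j`
  choose c' hc' using fun j => exists_wAL_conj N q x y hxy (β j)
  set w := wAL N q x y (q_ne_zero63 q) hxy with hw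
  have hcentral := scalarGL_central (q : ℝ) (by exact_mod_cast (q_ne_zero63 q))
  -- RHS
  have hR : UOp N q hU (WOp N q x y hxy φ) (Additive.ofMul γ') = ∑ j, φ (Additive.ofMul (c' j)) := by
    unfold UOp
    rw [heckeHom_apply_of_reps _ _ _ _ hU _ γ' σ β hβ]
    exact Finset.sum_congr rfl fun j _ => WOp_apply N q x y hxy φ (β j) (c' j) (hc' j)
  -- LHS
  have hL : degCores N q x y hxy hN hqN φ
      (Additive.ofMul ⟨(γ' : SL(2, ℤ)), Gamma0_mul_le N q _ γ'.2⟩)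
      = ∑ k : Option (ZMod q), φ (Additive.ofMul (k.elim γ' c')) := by
    unfold degCores
    refine heckeHom_apply_of_reps _ _ _ _ _ φ _ (Equiv.optionCongr σ) (fun k => k.elim γ' c') ?_
    intro k
    cases k with
    | none =>
      show (1 : GL (Fin 2) ℝ) * _ = _ * 1
      rw [one_mul, mul_one]; rfl
    | some j =>
      show mapGL ℝ (rMat N q x y hxy (j.val : ℤ)) * eGL63 N _
        = eGL63 (N * q) (c' j) * mapGL ℝ (rMat N q x y hxy ((σ j).val : ℤ))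
      have e1 : eGL63 N ⟨(γ' : SL(2, ℤ)), Gamma0_mul_le N q _ γ'.2⟩ = eGL63 (N * q) γ' := rfl
      rw [e1]
      have h1 := wAL_mul_heckeMatrix N q x y (q_ne_zero63 q) hxy j.val
      have h2 := wAL_mul_heckeMatrix N q x y (q_ne_zero63 q) hxy (σ j).val
      set zq := scalarGL (q : ℝ) (by exact_mod_cast (q_ne_zero63 q)) with hzq
      have h3 : zq * (mapGL ℝ (rMat N q x y hxy (j.val : ℤ)) * eGL63 (N * q) γ')
          = zq * (eGL63 (N * q) (c' j) * mapGL ℝ (rMat N q x y hxy ((σ j).val : ℤ))) := by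
        rw [← mul_assoc, ← h1, mul_assoc, hβ j, ← mul_assoc, hc' j, mul_assoc, h2, ← mul_assoc,
          ← mul_assoc, hcentral]
      exact mul_left_cancel h3
  rw [hL, hR, Fintype.sum_option]
  rfl

/-- on `ker cores`, `U_q W = -1`. -/
theorem UOp_WOp_of_degCores_eq_zero (hN : N ≠ 0) (hqN : ¬ q ∣ N) (hU : UStable N q)
    (φ : Additive (Gamma0 (N * q)) →+ A) (h : degCores N q x y hxy hN hqN φ = 0) :
    UOp N q hU (WOp N q x y hxy φ) = -φ := by
  have := degRes_degCores N q x y hxy hN hqN hU φ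
  rw [h, map_zero] at this
  exact (neg_eq_of_add_eq_zero_right this.symm).symm

/-- on `ker cores ⊓ ker (cores ∘ W)`, `U_q = -W`. -/
theorem UOp_eq_neg_WOp (hN : N ≠ 0) (hqN : ¬ q ∣ N) (hU : UStable N q)
    (φ : Additive (Gamma0 (N * q)) →+ A)
    (h2 : degCores N q x y hxy hN hqN (WOp N q x y hxy φ) = 0) :
    UOp N q hU φ = -WOp N q x y hxy φ := by
  have := UOp_WOp_of_degCores_eq_zero N q x y hxy hN hqN hU (WOp N q x y hxy φ) h2
  rwa [WOp_WOp] at this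

/-- **[NEW]** : `U_q² = 1` on `ker cores ⊓ ker (cores ∘ W)`. -/
theorem UOp_UOp_of_mem_ker (hN : N ≠ 0) (hqN : ¬ q ∣ N) (hU : UStable N q)
    (φ : Additive (Gamma0 (N * q)) →+ A)
    (h1 : degCores N q x y hxy hN hqN φ = 0)
    (h2 : degCores N q x y hxy hN hqN (WOp N q x y hxy φ) = 0) :
    UOp N q hU (UOp N q hU φ) = φ := by
  rw [UOp_eq_neg_WOp N q x y hxy hN hqN hU φ h2, map_neg,
    UOp_WOp_of_degCores_eq_zero N q x y hxy hN hqN hU φ h1, neg_neg]

end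

end Fermat.Agent.S41.New63
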