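/-
S41 [BETA-ALPHA] + bridge of C11 [NEW] to the `Hecke15` names (helper63).

With `α₁ := Hecke15.degRes`, `α₂ := Hecke15.degConj` (`Hom(Γ₀(N),A) → Hom(Γ₀(N q),A)`),
`β₁ := degCores`, `β₂ := degCores ∘ WOp` (`Hom(Γ₀(N q),A) → Hom(Γ₀(N),A)`):
* `WOp_degRes : W (res φ) = conj φ`, `WOp_degConj : W (conj φ) = res φ`;
* `degCores_degRes : β₁ (α₁ φ) = (q+1) • φ`, `degCores_degConj : β₁ (α₂ φ) = TX N A q φ`,
  `degCores_WOp_degRes : β₂ (α₁ φ) = TX N A q φ`, `degCores_WOp_degConj : β₂ (α₂ φ) = (q+1) • φ`;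
* `uStable63 : UStable N q`, `UOp_eq_TX : UOp N q hU = TX (N*q) A q`,
  **`TX_TX_of_mem_ker`** : [NEW] for `TX (N*q) A q`.
-/
import Mathlib
import Fermat.Agent.S41.New63.New
import Fermat.Agent.S41.Hecke15.Gamma0
import Fermat.Agent.S41.Hecke15.Degen

set_option autoImplicit false
set_option linter.unusedSectionVars false

namespace Fermat.Agent.S41.New63

open Matrix.SpecialLinearGroup CongruenceSubgroup ModularForm Fermat.Agent.S41.Hecke15
open Fermat.Agent.S16.HeckeHom24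
open scoped MatrixGroups OnePoint

theorem eGL63_eq (N : ℕ) : eGL63 N = eGL N := rfl

section

variable (N q : ℕ) [hqp : Fact q.Prime] (x y : ℤ) (hxy : (q : ℤ) * x - N * y = 1)
variable {A : Type*} [AddCommGroup A]

/-- `g₁ = [[q x, y],[N, 1]] ∈ Γ₀(N)`. -/
def gOne : SL(2, ℤ) :=
  ⟨!![(q : ℤ) * x, y; (N : ℤ), 1], by
    rw [Matrix.det_fin_two_of]
    linear_combination hxy⟩

theorem gOne_mem : gOne N q x y hxy ∈ Gamma0 N := by
  rw [Gamma0_mem]
  simp [gOne]

/-- `w = r₀ · diag(q,1)`. -/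
theorem wAL_eq_rMat_mul_diag :
    wAL N q x y (q_ne_zero63 q) hxy = mapGL ℝ (rMat N q x y hxy 0) * heckeDiagMatrix q := by
  have hq := q_ne_zero63 q
  ext i k
  fin_cases i <;> fin_cases k <;>
    simp [hq, rMat, Matrix.mul_apply, Fin.sum_univ_two] <;> ring

/-- `diag(q,1) · w = q · g₁`. -/
theorem diag_mul_wAL :
    heckeDiagMatrix q * wAL N q x y (q_ne_zero63 q) hxy
      = scalarGL (q : ℝ) (by exact_mod_cast (q_ne_zero63 q)) * mapGL ℝ (gOne N q x y hxy) := by
  have hq := q_ne_zero63 q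
  ext i k
  fin_cases i <;> fin_cases k <;>
    simp [hq, gOne, scalarGL, Matrix.mul_apply, Fin.sum_univ_two] <;> ring

/-- `diag(q,1) · r_j = g₁ · [[1,j],[0,q]]`. -/
theorem diag_mul_rMat (j : ℕ) :
    heckeDiagMatrix q * mapGL ℝ (rMat N q x y hxy (j : ℤ))
      = mapGL ℝ (gOne N q x y hxy) * heckeMatrix q j := by
  have hq := q_ne_zero63 q
  ext i k
  fin_cases i <;> fin_cases k <;>
    simp [hq, gOne, rMat, Matrix.mul_apply, Fin.sum_univ_two] <;> ring

end

/-! ### The operator identities -/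

section ops

variable (N q : ℕ) [hqp : Fact q.Prime] (x y : ℤ) (hxy : (q : ℤ) * x - N * y = 1)
variable {A : Type*} [AddCommGroup A]

theorem q_pos63 : 0 < q := hqp.out.pos

theorem degCores_def63 (hN : N ≠ 0) (hqN : ¬ q ∣ N) :
    (degCores N q x y hxy hN hqN : (Additive (Gamma0 (N * q)) →+ A) →+ _)
      = heckeHom (eGL (N * q)) (eGL_injective _) (eGL N) (coresFam N q x y hxy)
          (coresFam_isStable N q x y hxy hN hqN) := rfl

theorem WOp_def63 :
    (WOp N q x y hxy : (Additive (Gamma0 (N * q)) →+ A) →+ _)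
      = heckeHom (eGL (N * q)) (eGL_injective _) (eGL (N * q))
          (fun _ : Unit => wAL N q x y (q_ne_zero63 q) hxy) (wAL_isStable N q x y hxy) := rfl

/-- `W ∘ res = conj`. -/
theorem WOp_degRes (φ : Additive (Gamma0 N) →+ A) :
    WOp N q x y hxy (Hecke15.degRes (Dvd.intro q rfl) A φ) = degConj (q_pos63 q) A φ := by
  rw [WOp_def63]
  unfold Hecke15.degRes degConj
  rw [heckeHom_comp]
  refine DFunLike.congr_fun (heckeHom_congr _ _ _ _ _ _ _ (Equiv.punitProd Unit)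
    (fun _ => (⟨rMat N q x y hxy 0, rMat_mem_Gamma0 N q x y hxy 0⟩ : Gamma0 N)⁻¹) ?_) φ
  intro i
  show heckeDiagMatrix q = eGL N _ * (1 * wAL N q x y (q_ne_zero63 q) hxy)
  rw [one_mul, wAL_eq_rMat_mul_diag, map_inv, eGL_apply, inv_mul_cancel_left]

/-- `W ∘ conj = res`. -/
theorem WOp_degConj (φ : Additive (Gamma0 N) →+ A) :
    WOp N q x y hxy (degConj (q_pos63 q) A φ) = Hecke15.degRes (Dvd.intro q rfl) A φ := by
  set zq := scalarGL (q : ℝ) (by exact_mod_cast (q_ne_zero63 q)) with hzq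
  have hcentral := scalarGL_central (q : ℝ) (by exact_mod_cast (q_ne_zero63 q))
  have hst : IsStable (eGL N) (eGL (N * q)) (fun _ : Unit => zq * (1 : GL (Fin 2) ℝ)) :=
    IsStable.central_mul (stable_one (N := N) (N' := N * q) (Dvd.intro q rfl)) zq hcentral
  rw [WOp_def63]
  unfold Hecke15.degRes degConj
  rw [heckeHom_comp, ← heckeHom_central_mul (eGL N) (eGL_injective N) (eGL (N * q))
    (fun _ : Unit => (1 : GL (Fin 2) ℝ)) (stable_one (Dvd.intro q rfl)) zq hcentral hst]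
  refine (DFunLike.congr_fun (heckeHom_congr _ _ _ _ _ hst _ (Equiv.punitProd Unit).symm
    (fun _ => (⟨gOne N q x y hxy, gOne_mem N q x y hxy⟩ : Gamma0 N)) ?_) φ).symm
  intro i
  show heckeDiagMatrix q * wAL N q x y (q_ne_zero63 q) hxy = eGL N _ * (zq * 1)
  rw [diag_mul_wAL, mul_one, eGL_apply, ← hzq, hcentral]

/-- `cores ∘ res = q + 1`. -/
theorem degCores_degRes (hN : N ≠ 0) (hqN : ¬ q ∣ N) (φ : Additive (Gamma0 N) →+ A) :
    degCores N q x y hxy hN hqN (Hecke15.degRes (Dvd.intro q rfl) A φ) = (q + 1) • φ := by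
  have : NeZero q := ⟨q_ne_zero63 q⟩
  rw [degCores_def63]
  unfold Hecke15.degRes
  rw [heckeHom_comp, heckeHom_of_mem_range (eGL N) (eGL_injective N) _ _
    (fun p : Unit × OnePoint (ZMod q) => coresElt N q x y hxy p.2)
    (fun p => by rw [one_mul, coresFam_eq]; rfl)]
  congr 1
  rw [Fintype.card_prod, Fintype.card_unit, one_mul]
  show Fintype.card (Option (ZMod q)) = q + 1
  rw [Fintype.card_option, ZMod.card]

end ops

section ops2

variable (N q : ℕ) [hqp : Fact q.Prime] (x y : ℤ) (hxy : (q : ℤ) * x - N * y = 1)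
variable {A : Type*} [AddCommGroup A]

/-- `Fin q ≃ ZMod q`, with `(zmodFin q j).val = j`. -/
def finZMod63 : Fin q ≃ ZMod q :=
  have : NeZero q := ⟨q_ne_zero63 q⟩
  { toFun := fun j => ((j : ℕ) : ZMod q)
    invFun := fun z => ⟨z.val, ZMod.val_lt z⟩
    left_inv := fun j => Fin.ext (ZMod.val_cast_of_lt j.2)
    right_inv := fun z => ZMod.natCast_zmod_val z }

theorem finZMod63_val (j : Fin q) : (finZMod63 q j).val = (j : ℕ) :=
  ZMod.val_cast_of_lt j.2

theorem finZMod63_symm_val (z : ZMod q) : (((finZMod63 q).symm z : Fin q) : ℕ) = z.val := rfl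

/-- `cores ∘ conj = T_q`. -/
theorem degCores_degConj [NeZero N] (hN : N ≠ 0) (hqN : ¬ q ∣ N) (φ : Additive (Gamma0 N) →+ A) :
    degCores N q x y hxy hN hqN (degConj (q_pos63 q) A φ) = TX N A q φ := by
  rw [degCores_def63, TX_of_not_dvd hqp.out hqN]
  unfold degConj
  rw [heckeHom_comp]
  refine DFunLike.congr_fun (heckeHom_congr _ _ _ _ _ _ _
    ((Equiv.punitProd (OnePoint (ZMod q))).trans (Equiv.optionCongr (finZMod63 q).symm))
    (fun p => (p.2 : Option (ZMod q)).elim 1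
      (fun _ => (⟨gOne N q x y hxy, gOne_mem N q x y hxy⟩ : Gamma0 N)⁻¹)) ?_) φ
  rintro ⟨u, k⟩
  cases k with
  | infty =>
    show heckeDiagMatrix q = eGL N 1 * (heckeDiagMatrix q * 1)
    rw [map_one, one_mul, mul_one]
  | coe j =>
    show heckeMatrix q (((finZMod63 q).symm j : Fin q) : ℕ)
      = eGL N (⟨gOne N q x y hxy, gOne_mem N q x y hxy⟩ : Gamma0 N)⁻¹
        * (heckeDiagMatrix q * mapGL ℝ (rMat N q x y hxy (j.val : ℤ)))
    rw [finZMod63_symm_val, diag_mul_rMat, map_inv, eGL_apply, inv_mul_cancel_left]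

/-- `(cores ∘ W) ∘ res = T_q`. -/
theorem degCores_WOp_degRes [NeZero N] (hN : N ≠ 0) (hqN : ¬ q ∣ N)
    (φ : Additive (Gamma0 N) →+ A) :
    degCores N q x y hxy hN hqN (WOp N q x y hxy (Hecke15.degRes (Dvd.intro q rfl) A φ))
      = TX N A q φ := by
  rw [WOp_degRes, degCores_degConj]

/-- `(cores ∘ W) ∘ conj = q + 1`. -/
theorem degCores_WOp_degConj (hN : N ≠ 0) (hqN : ¬ q ∣ N) (φ : Additive (Gamma0 N) →+ A) :
    degCores N q x y hxy hN hqN (WOp N q x y hxy (degConj (q_pos63 q) A φ)) = (q + 1) • φ := by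
  rw [WOp_degConj, degCores_degRes]

/-- the `U_q`-family indexed by `ZMod q` is stable (from `Hecke15.stable_uRep`). -/
theorem uStable63 [NeZero (N * q)] : UStable N q := by
  have h := stable_uRep (N := N * q) (ℓ := q) (Dvd.intro_left N rfl)
  refine IsStable.congr (e := eGL (N * q)) (e' := eGL (N * q)) h (finZMod63 q) (fun _ => 1) ?_
  intro j
  show heckeMatrix q (finZMod63 q j).val = eGL (N * q) 1 * uRep q j
  rw [map_one, one_mul, finZMod63_val]
  rfl

/-- `UOp` is `TX (N q) A q`. -/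
theorem UOp_eq_TX [NeZero (N * q)] (hU : UStable N q) :
    (UOp N q hU : (Additive (Gamma0 (N * q)) →+ A) →+ _) = TX (N * q) A q := by
  rw [TX_of_dvd hqp.out (Dvd.intro_left N rfl)]
  unfold UOp
  refine (heckeHom_congr _ _ _ _ _ _ _ (finZMod63 q) (fun _ => 1) ?_).symm
  intro j
  show heckeMatrix q (finZMod63 q j).val = eGL (N * q) 1 * uRep q j
  rw [map_one, one_mul, finZMod63_val]
  rfl

/-- **[NEW] for `TX (N q) A q`** : `U_q² = 1` on `ker cores ⊓ ker (cores ∘ W)`. -/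
theorem TX_TX_of_mem_ker [NeZero (N * q)] (hN : N ≠ 0) (hqN : ¬ q ∣ N)
    (φ : Additive (Gamma0 (N * q)) →+ A)
    (h1 : degCores N q x y hxy hN hqN φ = 0)
    (h2 : degCores N q x y hxy hN hqN (WOp N q x y hxy φ) = 0) :
    TX (N * q) A q (TX (N * q) A q φ) = φ := by
  rw [← UOp_eq_TX N q (uStable63 N q)]
  exact UOp_UOp_of_mem_ker N q x y hxy hN hqN (uStable63 N q) φ h1 h2

/-- `U_q = - W` on `ker (cores ∘ W)`, for `TX`. -/
theorem TX_eq_neg_WOp [NeZero (N * q)] (hN : N ≠ 0) (hqN : ¬ q ∣ N)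
    (φ : Additive (Gamma0 (N * q)) →+ A)
    (h2 : degCores N q x y hxy hN hqN (WOp N q x y hxy φ) = 0) :
    TX (N * q) A q φ = -WOp N q x y hxy φ := by
  rw [← UOp_eq_TX N q (uStable63 N q)]
  exact UOp_eq_neg_WOp N q x y hxy hN hqN (uStable63 N q) φ h2

end ops2

/-- Bezout data for the Atkin–Lehner matrix exist as soon as `q ∤ N`. -/
theorem exists_bezout63 (N q : ℕ) (hq : q.Prime) (hqN : ¬ q ∣ N) :
    ∃ x y : ℤ, (q : ℤ) * x - N * y = 1 := by
  have hcop : Nat.Coprime q N := (Nat.Prime.coprime_iff_not_dvd hq).mpr hqN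
  have h := Int.gcd_eq_gcd_ab (q : ℤ) (N : ℤ)
  rw [Int.gcd_natCast_natCast, hcop] at h
  refine ⟨Int.gcdA q N, -Int.gcdB q N, ?_⟩
  push_cast at h
  linear_combination -h

end Fermat.Agent.S41.New63
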