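/-
S41 (helper63) — (R) the Hecke operators commute with restriction:
`TX (N q) A ℓ (degRes φ) = degRes (TX N A ℓ φ)` for every prime `ℓ ≠ q` (both `ℓ ∤ N q` and `ℓ ∣ N`),
and, with `WOp_TX_comm` of `Hecke15/WComm` and `WOp_degRes`, the same for `degConj` (D).
-/
import Mathlib
import Fermat.Agent.S41.New63.BetaAlpha
import Fermat.Agent.S41.Hecke15.WComm

set_option autoImplicit false
set_option linter.unusedSectionVars false

namespace Fermat.Agent.S41.New63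

open Matrix.SpecialLinearGroup CongruenceSubgroup ModularForm Fermat.Agent.S41.Hecke15
open Fermat.Agent.S16.HeckeHom24
open scoped MatrixGroups

section

variable (N q : ℕ) [hqp : Fact q.Prime] {A : Type*} [AddCommGroup A]

/-- **(R)** `T_ℓ`/`U_ℓ` commute with restriction `Γ₀(N q) ⊆ Γ₀(N)`, `ℓ ≠ q`. -/
theorem TX_degRes_comm [NeZero N] [NeZero (N * q)] {ℓ : ℕ} (hℓ : ℓ.Prime) (hℓq : ℓ ≠ q)
    (φ : Additive (Gamma0 N) →+ A) :
    TX (N * q) A ℓ (Hecke15.degRes (Dvd.intro q rfl) A φ)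
      = Hecke15.degRes (Dvd.intro q rfl) A (TX N A ℓ φ) := by
  have hq := hqp.out
  by_cases hℓN : ℓ ∣ N
  · have hℓNq : ℓ ∣ N * q := Dvd.dvd.mul_right hℓN q
    rw [TX_of_dvd hℓ hℓNq, TX_of_dvd hℓ hℓN]
    unfold Hecke15.degRes
    rw [heckeHom_comp, heckeHom_comp]
    refine (DFunLike.congr_fun (heckeHom_congr _ _ _ _ _ _ _ (Equiv.prodComm (Fin ℓ) Unit)
      (fun _ => 1) ?_) φ).symm
    rintro ⟨k, u⟩
    show (1 : GL (Fin 2) ℝ) * uRep ℓ k = eGL N 1 * (uRep ℓ k * 1)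
    rw [map_one, one_mul, one_mul, mul_one]
  · have hℓNq : ¬ ℓ ∣ N * q := by
      intro h
      rcases (Nat.Prime.dvd_mul hℓ).mp h with h1 | h1
      · exact hℓN h1
      · exact hℓq ((Nat.prime_dvd_prime_iff_eq hℓ hq).mp h1)
    rw [TX_of_not_dvd hℓ hℓNq, TX_of_not_dvd hℓ hℓN]
    unfold Hecke15.degRes
    rw [heckeHom_comp, heckeHom_comp]
    refine (DFunLike.congr_fun (heckeHom_congr _ _ _ _ _ _ _
      (Equiv.prodComm (Option (Fin ℓ)) Unit) (fun _ => 1) ?_) φ).symm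
    rintro ⟨k, u⟩
    show (1 : GL (Fin 2) ℝ) * tRep ℓ k = eGL N 1 * (tRep ℓ k * 1)
    rw [map_one, one_mul, one_mul, mul_one]

/-- **(D)** `T_ℓ`/`U_ℓ` commute with the second degeneracy map, `ℓ ≠ q` (`q ∤ N`). -/
theorem TX_degConj_comm [NeZero N] [NeZero (N * q)] (hqN : ¬ q ∣ N) {ℓ : ℕ} (hℓ : ℓ.Prime)
    (hℓq : ℓ ≠ q) (φ : Additive (Gamma0 N) →+ A) :
    TX (N * q) A ℓ (degConj (q_pos63 q) A φ) = degConj (q_pos63 q) A (TX N A ℓ φ) := by
  obtain ⟨x, y, hxy⟩ := exists_bezout63 N q hqp.out hqN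
  rw [← WOp_degRes N q x y hxy, ← WOp_degRes N q x y hxy, ← WOp_TX_comm N q x y hxy hℓ hℓq,
    TX_degRes_comm N q hℓ hℓq]

end

end Fermat.Agent.S41.New63
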