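/-
S41 / C11 [NEW] (helper63) — Mathlib-only lemmas on `MonoidHom.transfer`.

`transfer_eq_prod_of_leftReps` / `transfer_eq_prod_of_rightReps`: the transfer of `ϕ : H →* A`
evaluated at `g` is the product of the values `ϕ (h i)` for ANY system of coset representatives
`t i` (resp. `ρ i`), ANY map `σ` and ANY elements `h i ∈ H` with `g * t (σ i) = t i * h i`
(resp. `ρ i * g = h i * ρ (σ i)`).  This is the "explicit coset formula" used to compare the
double-coset operators on `Hom(Γ, A)`.
-/
import Mathlib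

set_option autoImplicit false

namespace Fermat.Agent.S41.New63

open Subgroup Subgroup.leftTransversals MulAction

variable {G : Type*} [Group G] {H : Subgroup G} {A : Type*} [CommGroup A]

/-- explicit formula for the transfer with an arbitrary system of LEFT coset representatives. -/
theorem transfer_eq_prod_of_leftReps [H.FiniteIndex] (ϕ : H →* A) {ι : Type*} [Fintype ι]
    (t : ι → G) (ht : Function.Bijective (fun i => (QuotientGroup.mk (t i) : G ⧸ H)))
    (g : G) (σ : ι → ι) (h : ι → H) (hh : ∀ i, g * t (σ i) = t i * (h i : G)) :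
    MonoidHom.transfer ϕ g = ∏ i, ϕ (h i) := by
  classical
  let e : ι ≃ G ⧸ H := Equiv.ofBijective _ ht
  let f : G ⧸ H → G := fun q => t (e.symm q)
  have hf : ∀ q, (QuotientGroup.mk (f q) : G ⧸ H) = q := fun q => e.apply_symm_apply q
  let T : H.LeftTransversal := ⟨Set.range f, isComplement_range_left hf⟩
  have hα : ∀ q, ((T.2.leftQuotientEquiv q : G)) = f q :=
    fun q => IsComplement.leftQuotientEquiv_apply hf q
  rw [MonoidHom.transfer_def ϕ T g]
  unfold diff
  let _ := H.fintypeQuotientOfFiniteIndex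
  simp only
  rw [← Equiv.prod_comp e]
  refine Finset.prod_congr rfl fun i _ => ?_
  congr 1
  apply Subtype.ext
  simp only
  rw [smul_apply_eq_smul_apply_inv_smul, hα, hα]
  have h1 : f (e i) = t i := by
    show t (e.symm (e i)) = t i
    rw [e.symm_apply_apply]
  have h2 : g⁻¹ • e i = e (σ i) := by
    show g⁻¹ • (QuotientGroup.mk (t i) : G ⧸ H) = QuotientGroup.mk (t (σ i))
    rw [MulAction.Quotient.smul_mk, smul_eq_mul]
    apply QuotientGroup.eq.mpr
    have : (g⁻¹ * t i)⁻¹ * t (σ i) = (h i : G) := by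
      rw [mul_inv_rev, inv_inv, mul_assoc, hh i, ← mul_assoc, inv_mul_cancel, one_mul]
    rw [this]
    exact (h i).2
  have h3 : f (g⁻¹ • e i) = t (σ i) := by
    rw [h2]
    show t (e.symm (e (σ i))) = t (σ i)
    rw [e.symm_apply_apply]
  rw [h1, h3, smul_eq_mul, hh i, ← mul_assoc, inv_mul_cancel, one_mul]

/-- explicit formula for the transfer with an arbitrary system of RIGHT coset representatives
`ρ i` (i.e. `i ↦ (ρ i)⁻¹ H` is a bijection onto `G ⧸ H`): if `ρ i * g = h i * ρ (σ i)` with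
`h i ∈ H`, then `transfer ϕ g = ∏ i, ϕ (h i)`. -/
theorem transfer_eq_prod_of_rightReps [H.FiniteIndex] (ϕ : H →* A) {ι : Type*} [Fintype ι]
    (ρ : ι → G) (hρ : Function.Bijective (fun i => (QuotientGroup.mk (ρ i)⁻¹ : G ⧸ H)))
    (g : G) (σ : ι → ι) (h : ι → H) (hh : ∀ i, ρ i * g = (h i : G) * ρ (σ i)) :
    MonoidHom.transfer ϕ g = ∏ i, ϕ (h i) := by
  refine transfer_eq_prod_of_leftReps ϕ (fun i => (ρ i)⁻¹) hρ g σ h fun i => ?_
  have := hh i
  calc g * (ρ (σ i))⁻¹ = (ρ i)⁻¹ * (ρ i * g) * (ρ (σ i))⁻¹ := by group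
    _ = (ρ i)⁻¹ * ((h i : G) * ρ (σ i)) * (ρ (σ i))⁻¹ := by rw [this]
    _ = (ρ i)⁻¹ * (h i : G) := by group

/-- a family `ρ : ι → G` is a system of right coset representatives of `H` as soon as it is
"injective modulo `H`", and every element lies in some `H ρ i`. -/
theorem bijective_mk_inv_of_rightReps (ι : Type*) (ρ : ι → G)
    (hinj : ∀ i j, ρ i * (ρ j)⁻¹ ∈ H → i = j) (hsurj : ∀ g : G, ∃ i, g * (ρ i)⁻¹ ∈ H) :
    Function.Bijective (fun i => (QuotientGroup.mk (ρ i)⁻¹ : G ⧸ H)) := by
  constructor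
  · intro i j hij
    have := QuotientGroup.eq.mp hij
    rw [inv_inv] at this
    exact hinj i j this
  · intro q
    induction q using QuotientGroup.induction_on with
    | H g =>
      obtain ⟨i, hi⟩ := hsurj g⁻¹
      refine ⟨i, ?_⟩
      apply QuotientGroup.eq.mpr
      rw [inv_inv]
      have : ρ i * g = (g⁻¹ * (ρ i)⁻¹)⁻¹ := by group
      rw [this]
      exact H.inv_mem hi

end Fermat.Agent.S41.New63
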