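/-
S41 (helper63) — the Atkin–Lehner operator `WOp` commutes with `T_ℓ = TX (N q) A ℓ`, `ℓ ∤ N q`.

* `exists_decomp_T` : every integer matrix of determinant `ℓ` (prime, `ℓ ∤ M`) with lower-left entry
  divisible by `M` is `δ * tMat ℓ j` with `δ ∈ Γ₀(M)`;
* `exists_wAL_tRep` : `wAL * tRep ℓ i = eGL δ * tRep ℓ j * wAL`, `δ ∈ Γ₀(N q)`;
* **`TX_WOp_comm`** : `TX (N q) A ℓ (WOp φ) = WOp (TX (N q) A ℓ φ)`.
-/
import Mathlib
import Fermat.Agent.S41.New63.BetaAlpha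

set_option autoImplicit false
set_option linter.unusedSectionVars false

namespace Fermat.Agent.S41.New63

open Matrix.SpecialLinearGroup CongruenceSubgroup ModularForm Fermat.Agent.S41.Hecke15
open Fermat.Agent.S16.HeckeHom24
open scoped MatrixGroups

/-- every integer matrix of determinant `ℓ` with lower-left entry divisible by `M` lies in some
`Γ₀(M) * tMat ℓ j`. -/
theorem exists_decomp_T {M ℓ : ℕ} (hℓ : ℓ.Prime) (hℓM : ¬ ℓ ∣ M) (a b c d : ℤ)
    (hdet : a * d - b * c = ℓ) (hc : (M : ℤ) ∣ c) :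
    ∃ (j : Option (Fin ℓ)) (δ : SL(2, ℤ)), δ ∈ Gamma0 M ∧
      (!![a, b; c, d] : Matrix (Fin 2) (Fin 2) ℤ) = (δ : Matrix (Fin 2) (Fin 2) ℤ) * tMat ℓ j := by
  have hℓpos : 0 < ℓ := hℓ.pos
  have hℓprime : Prime (ℓ : ℤ) := Nat.prime_iff_prime_int.mp hℓ
  have hℓint : Irreducible (ℓ : ℤ) := hℓprime.irreducible
  by_cases hA : (ℓ : ℤ) ∣ a
  · by_cases hC : (ℓ : ℤ) ∣ c
    · -- the diagonal representative
      obtain ⟨a₁, ha₁⟩ := hA
      obtain ⟨c₁, hc₁⟩ := hC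
      have hM : (M : ℤ) ∣ c₁ := by
        have h1 : (M : ℤ) ∣ (ℓ : ℤ) * c₁ := by rw [← hc₁]; exact hc
        have hcop : IsCoprime (M : ℤ) (ℓ : ℤ) := by
          rw [Int.isCoprime_iff_gcd_eq_one, Int.gcd_natCast_natCast]
          exact (Nat.coprime_comm.mp ((Nat.Prime.coprime_iff_not_dvd hℓ).mpr hℓM))
        exact hcop.dvd_of_dvd_mul_left h1
      have hℓ0 : (ℓ : ℤ) ≠ 0 := by exact_mod_cast hℓ.ne_zero
      have hdet1 : a₁ * d - b * c₁ = 1 := by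
        apply mul_left_cancel₀ hℓ0
        rw [ha₁, hc₁] at hdet
        linear_combination hdet
      refine ⟨none, mkSL a₁ b c₁ d hdet1, mem_Gamma0_of_dvd hM, ?_⟩
      rw [mkSL_coe]
      simp only [tMat, Matrix.mul_fin_two]
      refine mat_ext ?_ ?_ ?_ ?_
      · linear_combination ha₁
      · ring
      · linear_combination hc₁
      · ring
    · -- `ℓ ∣ a`, `ℓ ∤ c`
      have hcop : IsCoprime (ℓ : ℤ) c := hℓint.coprime_iff_not_dvd.mpr hC
      obtain ⟨u, v, huv⟩ := hcop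
      have hv : (ℓ : ℤ) ∣ v * c - 1 := ⟨-u, by linear_combination huv⟩
      obtain ⟨j, s, hs⟩ := exists_fin_dvd hℓpos hv d
      -- `ℓ ∣ c * (b - j a)`
      have h1 : (ℓ : ℤ) ∣ c * (b - ((j : ℕ) : ℤ) * a) :=
        ⟨a * s - 1, by linear_combination (-1 : ℤ) * hdet + a * hs⟩
      obtain ⟨t, ht⟩ := (hℓprime.dvd_or_dvd h1).resolve_left hC
      have hℓ0 : (ℓ : ℤ) ≠ 0 := by exact_mod_cast hℓ.ne_zero
      have hdet1 : a * s - t * c = 1 := by
        apply mul_left_cancel₀ hℓ0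
        linear_combination hdet - a * hs + c * ht
      refine ⟨some j, mkSL a t c s hdet1, mem_Gamma0_of_dvd hc, ?_⟩
      rw [mkSL_coe]
      simp only [tMat, Matrix.mul_fin_two]
      refine mat_ext ?_ ?_ ?_ ?_
      · ring
      · linear_combination ht
      · ring
      · linear_combination hs
  · -- `ℓ ∤ a`
    have hcop : IsCoprime (ℓ : ℤ) a := hℓint.coprime_iff_not_dvd.mpr hA
    obtain ⟨u, v, huv⟩ := hcop
    have hv : (ℓ : ℤ) ∣ v * a - 1 := ⟨-u, by linear_combination huv⟩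
    obtain ⟨j, t, ht⟩ := exists_fin_dvd hℓpos hv b
    have h1 : (ℓ : ℤ) ∣ a * (d - ((j : ℕ) : ℤ) * c) :=
      ⟨1 + c * t, by linear_combination hdet + c * ht⟩
    obtain ⟨s, hs⟩ := (hℓprime.dvd_or_dvd h1).resolve_left hA
    have hℓ0 : (ℓ : ℤ) ≠ 0 := by exact_mod_cast hℓ.ne_zero
    have hdet1 : a * s - t * c = 1 := by
      apply mul_left_cancel₀ hℓ0
      linear_combination hdet - a * hs + c * ht
    refine ⟨some j, mkSL a t c s hdet1, mem_Gamma0_of_dvd hc, ?_⟩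
    rw [mkSL_coe]
    simp only [tMat, Matrix.mul_fin_two]
    refine mat_ext ?_ ?_ ?_ ?_
    · ring
    · linear_combination ht
    · ring
    · linear_combination hs

section W

variable (N q : ℕ) [hqp : Fact q.Prime] (x y : ℤ) (hxy : (q : ℤ) * x - N * y = 1)
variable {A : Type*} [AddCommGroup A]

/-- the Atkin–Lehner matrix as an integer matrix -/
def wMatInt : Matrix (Fin 2) (Fin 2) ℤ := !![(q : ℤ) * x, y; (N : ℤ) * q, (q : ℤ)]

theorem wAL_coe :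
    ((wAL N q x y (q_ne_zero63 q) hxy : GL (Fin 2) ℝ) : Matrix (Fin 2) (Fin 2) ℝ)
      = (wMatInt N q x y).map (Int.castRingHom ℝ) := by
  rw [val_wAL]
  ext i k
  fin_cases i <;> fin_cases k <;> simp [wMatInt]

include hxy in
/-- `w` conjugates upper triangular integer matrices into `Δ₀(N q)`. -/
theorem wMatInt_mul_upper (a b d : ℤ) :
    wMatInt N q x y * !![a, b; 0, d]
      = !![q * x * a - N * q * x * b - N * y * d, -x * a * y + q * x ^ 2 * b + x * y * d;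
          N * q * (a - N * b - d), -N * a * y + N * q * x * b + q * x * d] * wMatInt N q x y := by
  simp only [wMatInt, Matrix.mul_fin_two]
  refine mat_ext ?_ ?_ ?_ ?_
  · linear_combination (-((q : ℤ) * x * a)) * hxy
  · linear_combination (-((q : ℤ) * x * b + y * d)) * hxy
  · linear_combination (-((N : ℤ) * q * a)) * hxy
  · linear_combination (-((N : ℤ) * q * b + q * d)) * hxy

include hxy in
/-- for every `T_ℓ`-representative `τ_i` there are `j` and `δ ∈ Γ₀(N q)` with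
`w τ_i = δ τ_j w` (integer matrices). -/
theorem exists_wMatInt_tMat {ℓ : ℕ} (hℓ : ℓ.Prime) (hℓNq : ¬ ℓ ∣ N * q) (i : Option (Fin ℓ)) :
    ∃ (j : Option (Fin ℓ)) (δ : SL(2, ℤ)), δ ∈ Gamma0 (N * q) ∧
      wMatInt N q x y * tMat ℓ i
        = (δ : Matrix (Fin 2) (Fin 2) ℤ) * tMat ℓ j * wMatInt N q x y := by
  obtain ⟨a, b, d, hi, had⟩ : ∃ a b d : ℤ, tMat ℓ i = !![a, b; 0, d] ∧ a * d = ℓ := by
    rcases i with _ | j
    · exact ⟨ℓ, 0, 1, rfl, by ring⟩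
    · exact ⟨1, ((j : ℕ) : ℤ), ℓ, rfl, by ring⟩
  rw [hi, wMatInt_mul_upper N q x y hxy]
  obtain ⟨j, δ, hδ, hdec⟩ := exists_decomp_T hℓ hℓNq
    (q * x * a - N * q * x * b - N * y * d) (-x * a * y + q * x ^ 2 * b + x * y * d)
    (N * q * (a - N * b - d)) (-N * a * y + N * q * x * b + q * x * d)
    (by linear_combination (((q : ℤ) * x - N * y + 1) * (a * d)) * hxy + had)
    ⟨a - N * b - d, by push_cast; ring⟩
  exact ⟨j, δ, hδ, by rw [hdec]⟩

include hxy in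
/-- the same in `GL₂(ℝ)`. -/
theorem exists_wAL_tRep {ℓ : ℕ} (hℓ : ℓ.Prime) (hℓNq : ¬ ℓ ∣ N * q) (i : Option (Fin ℓ)) :
    ∃ (j : Option (Fin ℓ)) (δ : Gamma0 (N * q)),
      wAL N q x y (q_ne_zero63 q) hxy * tRep ℓ i
        = eGL (N * q) δ * (tRep ℓ j * wAL N q x y (q_ne_zero63 q) hxy) := by
  obtain ⟨j, δ, hδ, h⟩ := exists_wMatInt_tMat N q x y hxy hℓ hℓNq i
  refine ⟨j, ⟨δ, hδ⟩, ?_⟩
  apply Units.ext
  rw [Units.val_mul, Units.val_mul, Units.val_mul, wAL_coe, tRep_coe hℓ.ne_zero i,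
    tRep_coe hℓ.ne_zero j, iota_coe, ← Matrix.map_mul, ← Matrix.map_mul, ← Matrix.map_mul, h,
    mul_assoc]

end W

section comm

variable (N q : ℕ) [hqp : Fact q.Prime] (x y : ℤ) (hxy : (q : ℤ) * x - N * y = 1)
variable {A : Type*} [AddCommGroup A]

/-- `w⁻¹ Γ₀(N q) w ⊆ Γ₀(N q)` : every `c` is a `w`-conjugate. -/
theorem exists_wAL_conj_symm (c : Gamma0 (N * q)) :
    ∃ γ' : Gamma0 (N * q), wAL N q x y (q_ne_zero63 q) hxy * eGL (N * q) γ'
      = eGL (N * q) c * wAL N q x y (q_ne_zero63 q) hxy := by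
  obtain ⟨c₂, h₂⟩ := exists_wAL_conj N q x y hxy c
  obtain ⟨γ₀, h10, hsq⟩ := wAL_sq N q x y (q_ne_zero63 q) hxy
  have hγ₀ : γ₀ ∈ Gamma0 (N * q) := by
    rw [mem_Gamma0_iff_dvd, h10]
    exact ⟨x + 1, by push_cast; ring⟩
  set w := wAL N q x y (q_ne_zero63 q) hxy with hw
  set zq := scalarGL (q : ℝ) (by exact_mod_cast (q_ne_zero63 q)) with hzq
  have hcentral : ∀ g : GL (Fin 2) ℝ, zq * g = g * zq :=
    scalarGL_central (q : ℝ) (by exact_mod_cast (q_ne_zero63 q))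
  let g₀ : Gamma0 (N * q) := ⟨γ₀, hγ₀⟩
  have hg₀ : eGL (N * q) g₀ = mapGL ℝ γ₀ := rfl
  refine ⟨g₀⁻¹ * c₂ * g₀, ?_⟩
  have h3 : w * w * eGL (N * q) (g₀⁻¹ * c₂ * g₀) = eGL (N * q) c₂ * (w * w) := by
    rw [hsq, ← hg₀]
    calc zq * eGL (N * q) g₀ * eGL (N * q) (g₀⁻¹ * c₂ * g₀)
        = zq * eGL (N * q) (g₀ * (g₀⁻¹ * c₂ * g₀)) := by rw [mul_assoc, ← map_mul]
      _ = zq * eGL (N * q) (c₂ * g₀) := by congr 2; group
      _ = zq * (eGL (N * q) c₂ * eGL (N * q) g₀) := by rw [map_mul]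
      _ = eGL (N * q) c₂ * (zq * eGL (N * q) g₀) := by rw [← mul_assoc, hcentral, mul_assoc]
  have h4 : w * (w * eGL (N * q) (g₀⁻¹ * c₂ * g₀)) = w * (eGL (N * q) c * w) := by
    rw [← mul_assoc, h3, ← mul_assoc w, show w * eGL (N * q) c = eGL (N * q) c₂ * w from h₂,
      mul_assoc]
  exact mul_left_cancel h4

variable {ℓ : ℕ} (hℓ : ℓ.Prime) (hℓNq : ¬ ℓ ∣ N * q)

/-- the permutation of the `T_ℓ`-representatives induced by conjugation by `w`. -/
noncomputable def wPerm (i : Option (Fin ℓ)) : Option (Fin ℓ) :=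
  (exists_wAL_tRep N q x y hxy hℓ hℓNq i).choose

/-- the elements `δ_i ∈ Γ₀(N q)` with `w τ_i = δ_i τ_{σ i} w`. -/
noncomputable def wElt (i : Option (Fin ℓ)) : Gamma0 (N * q) :=
  (exists_wAL_tRep N q x y hxy hℓ hℓNq i).choose_spec.choose

theorem wPerm_spec (i : Option (Fin ℓ)) :
    wAL N q x y (q_ne_zero63 q) hxy * tRep ℓ i
      = eGL (N * q) (wElt N q x y hxy hℓ hℓNq i)
        * (tRep ℓ (wPerm N q x y hxy hℓ hℓNq i) * wAL N q x y (q_ne_zero63 q) hxy) :=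
  (exists_wAL_tRep N q x y hxy hℓ hℓNq i).choose_spec.choose_spec

theorem wPerm_injective : Function.Injective (wPerm N q x y hxy hℓ hℓNq) := by
  intro i i' hii
  have h1 := wPerm_spec N q x y hxy hℓ hℓNq i
  have h2 := wPerm_spec N q x y hxy hℓ hℓNq i'
  rw [← hii] at h2
  set w := wAL N q x y (q_ne_zero63 q) hxy with hw
  set δ := wElt N q x y hxy hℓ hℓNq i
  set δ' := wElt N q x y hxy hℓ hℓNq i'
  set j := wPerm N q x y hxy hℓ hℓNq i
  -- `w τ_i = e(δ δ'⁻¹) w τ_{i'}`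
  have h3 : w * tRep ℓ i = eGL (N * q) (δ * δ'⁻¹) * (w * tRep ℓ i') := by
    rw [h1, h2, map_mul, map_inv]
    group
  obtain ⟨γ', hγ'⟩ := exists_wAL_conj_symm N q x y hxy (δ * δ'⁻¹)
  rw [← mul_assoc, ← hγ', mul_assoc] at h3
  have h4 := mul_left_cancel h3
  exact (tSys (N * q) hℓ hℓNq).distinct i i' γ' h4

/-- **`T_ℓ` commutes with the Atkin–Lehner operator** (`ℓ ∤ N q`). -/
theorem TX_WOp_comm [NeZero (N * q)] {ℓ : ℕ} (hℓ : ℓ.Prime) (hℓNq : ¬ ℓ ∣ N * q)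
    (φ : Additive (Gamma0 (N * q)) →+ A) :
    TX (N * q) A ℓ (WOp N q x y hxy φ) = WOp N q x y hxy (TX (N * q) A ℓ φ) := by
  rw [TX_of_not_dvd hℓ hℓNq, WOp_def63, heckeHom_comp, heckeHom_comp]
  have hbij : Function.Bijective (wPerm N q x y hxy hℓ hℓNq) :=
    Finite.injective_iff_bijective.mp (wPerm_injective N q x y hxy hℓ hℓNq)
  let σ : Option (Fin ℓ) ≃ Option (Fin ℓ) := Equiv.ofBijective _ hbij
  refine (DFunLike.congr_fun (heckeHom_congr _ _ _ _ _ _ _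
    ((Equiv.prodComm (Option (Fin ℓ)) Unit).trans (Equiv.prodCongr (Equiv.refl Unit) σ.symm))
    (fun p => wElt N q x y hxy hℓ hℓNq (σ.symm p.1)) ?_) φ).symm
  rintro ⟨k, u⟩
  show wAL N q x y (q_ne_zero63 q) hxy * tRep ℓ (σ.symm k)
    = eGL (N * q) (wElt N q x y hxy hℓ hℓNq (σ.symm k))
      * (tRep ℓ k * wAL N q x y (q_ne_zero63 q) hxy)
  have h := wPerm_spec N q x y hxy hℓ hℓNq (σ.symm k)
  have hk : wPerm N q x y hxy hℓ hℓNq (σ.symm k) = k := σ.apply_symm_apply k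
  rw [hk] at h
  exact h

end comm

end Fermat.Agent.S41.New63
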